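import Mathlib

/-!
# S55 / REC / global dictionary: shortcut instances (helper64)

Instance search for the action of `Gal(L/K)` on `Lˣ` (`AlgEquiv.instMulDistribMulActionUnits`)
is slow (more than the default `synthInstance.maxHeartbeats`) when `L` is (the coercion to a type
of) an intermediate field.  The following shortcut instances are definitionally the Mathlib
instances.
-/

set_option autoImplicit false

namespace Fermat.Agent.S55.G.Rec.Glob

variable {K E : Type} [Field K] [Field E] [Algebra K E] (L : IntermediateField K E)

/-- Shortcut instance. -/
instance instMulDistribMulActionIF : MulDistribMulAction (L ≃ₐ[K] L) (↥L)ˣ :=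
  AlgEquiv.instMulDistribMulActionUnits

/-- Shortcut instance. -/
instance instSMulIF : SMul (L ≃ₐ[K] L) (↥L)ˣ :=
  (instMulDistribMulActionIF L).toMulAction.toSMul

end Fermat.Agent.S55.G.Rec.Glob
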