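import Fermat.Agent.S55.G.Rec.H379Core
import Fermat.Agent.S55.Local.H64.GalInfRes
import Fermat.Agent.S55.G.Rec.Glob.Inst

/-!
# S55 / REC / K4, finite-level core (helper64)

`exists_cupChar_of_res_coboundary` : let `E / K` be a finite Galois extension, `Γ = Gal(E/K)`,
`χ : Γ →* ℤ/n` a surjective character and `c` a 2-cocycle of `Γ` with values in `Eˣ` whose
restriction to `ker χ` is a coboundary.  Then `c` is cohomologous to the cup cocycle
`(γ, δ) ↦ a ^ carry(χ γ, χ δ)` for some `a ∈ Kˣ`.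

Proof: inflation–restriction for the tower `K ⊆ L = E^{ker χ} ⊆ E`
(`Local/H64/GalInfRes.lean`, Hilbert 90) and the explicit description of the second cohomology of
a cyclic group (`H379.exists_cupChar_cohomologous`).
-/

set_option autoImplicit false
set_option linter.style.haveILetI false

namespace Fermat.Agent.S55.G.Rec.Glob

open groupCohomology Fermat.Agent.S55.Local.H64 Fermat.Agent.S55.G.Rec

/-- The additive action on `Additive M` attached to a multiplicative action on `M`. -/
@[reducible] def addAct (G M : Type) [Group G] [CommGroup M] [MulDistribMulAction G M] :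
    DistribMulAction G (Additive M) where
  smul g x := Additive.ofMul (g • Additive.toMul x)
  one_smul x := by
    change Additive.ofMul ((1 : G) • Additive.toMul x) = x
    rw [one_smul]; rfl
  mul_smul g h x := by
    change Additive.ofMul ((g * h) • Additive.toMul x) =
      Additive.ofMul (g • Additive.toMul (Additive.ofMul (h • Additive.toMul x)))
    rw [mul_smul]; rfl
  smul_zero g := by
    change Additive.ofMul (g • (1 : M)) = 0
    rw [smul_one]; rfl
  smul_add g x y := by
    change Additive.ofMul (g • (Additive.toMul x * Additive.toMul y)) =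
      Additive.ofMul (g • Additive.toMul x) + Additive.ofMul (g • Additive.toMul y)
    rw [smul_mul']; rfl

section Finite

variable (K E : Type) [Field K] [Field E] [Algebra K E] [FiniteDimensional K E] [IsGalois K E]

/-- **K4, finite level.** -/
theorem exists_cupChar_of_res_coboundary (n : ℕ) [NeZero n]
    (χ : (E ≃ₐ[K] E) →* Multiplicative (ZMod n)) (hχ : Function.Surjective χ)
    (c : (E ≃ₐ[K] E) × (E ≃ₐ[K] E) → Eˣ) (hc : IsMulCocycle₂ c)
    (β : χ.ker → Eˣ)
    (hβ : ∀ s t : χ.ker, (s : E ≃ₐ[K] E) • β t / β (s * t) * β s = c ((s : E ≃ₐ[K] E), t)) :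
    ∃ (a : Kˣ) (w : (E ≃ₐ[K] E) → Eˣ), ∀ γ δ : E ≃ₐ[K] E,
      c (γ, δ) = (γ • w δ / w (γ * δ) * w γ) *
        (Units.map (algebraMap K E : K →* E) a) ^
          (H379.carry n (Multiplicative.toAdd (χ γ)) (Multiplicative.toAdd (χ δ))) := by
  classical
  -- the fixed field of `ker χ`
  let L : IntermediateField K E := IntermediateField.fixedField χ.ker
  haveI : IsGalois K L := IsGalois.of_fixedField_normal_subgroup χ.ker
  have hfix : L.fixingSubgroup = χ.ker := IntermediateField.fixingSubgroup_fixedField χ.ker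
  have hmem : ∀ τ : E ≃ₐ[L] E, τ.restrictScalars K ∈ χ.ker := by
    intro τ
    rw [← hfix, IntermediateField.mem_fixingSubgroup_iff]
    intro x hx
    exact τ.commutes ⟨x, hx⟩
  -- the restriction of `c` to `Gal(E/L)` is a coboundary
  have hres : IsMulCoboundary₂ (resCochain K L E c) := by
    refine ⟨fun τ => β ⟨τ.restrictScalars K, hmem τ⟩, fun τ τ' => ?_⟩
    exact hβ ⟨τ.restrictScalars K, hmem τ⟩ ⟨τ'.restrictScalars K, hmem τ'⟩
  obtain ⟨c₁, hc₁, y, hy⟩ := exists_inflCochain_of_resCochain K L E hc hres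
  -- the character of `Gal(L/K)`
  have hsurjL : Function.Surjective (AlgEquiv.restrictNormalHom (F := K) (K₁ := E) L) :=
    AlgEquiv.restrictNormalHom_surjective E
  have hkerL : (AlgEquiv.restrictNormalHom (F := K) (K₁ := E) L).ker = χ.ker := by
    rw [IntermediateField.restrictNormalHom_ker, hfix]
  let χL : (L ≃ₐ[K] L) →* Multiplicative (ZMod n) :=
    MonoidHom.liftOfSurjective (AlgEquiv.restrictNormalHom (F := K) (K₁ := E) L) hsurjL
      ⟨χ, hkerL.le⟩
  have hχL : ∀ γ : E ≃ₐ[K] E, χL (AlgEquiv.restrictNormalHom L γ) = χ γ := fun γ =>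
    MonoidHom.liftOfRightInverse_comp_apply _ _ _ _ γ
  let ψ : (L ≃ₐ[K] L) → ZMod n := fun σ => Multiplicative.toAdd (χL σ)
  have hψadd : ∀ g h, ψ (g * h) = ψ g + ψ h := by
    intro g h
    simp only [ψ, map_mul, toAdd_mul]
  have hψinj : Function.Injective ψ := by
    intro σ σ' h
    have h1 : χL σ = χL σ' := Multiplicative.toAdd.injective h
    obtain ⟨γ, rfl⟩ := hsurjL σ
    obtain ⟨γ', rfl⟩ := hsurjL σ'
    rw [hχL, hχL] at h1
    have h2 : γ⁻¹ * γ' ∈ (AlgEquiv.restrictNormalHom (F := K) (K₁ := E) L).ker := by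
      rw [hkerL, MonoidHom.mem_ker, map_mul, map_inv, h1, inv_mul_cancel]
    rw [MonoidHom.mem_ker, map_mul, map_inv, inv_mul_eq_one] at h2
    exact h2
  obtain ⟨γ₀, hγ₀⟩ := hχ (Multiplicative.ofAdd 1)
  have hψσ : ψ (AlgEquiv.restrictNormalHom L γ₀) = 1 := by
    simp only [ψ, hχL, hγ₀, toAdd_ofAdd]
  -- cyclic periodicity at the level of `L / K`
  obtain ⟨aL, haLfix, z, hz⟩ : ∃ (aL : (↥L)ˣ) (_ : ∀ σ : L ≃ₐ[K] L, σ • aL = aL)
      (z : (L ≃ₐ[K] L) → (↥L)ˣ), ∀ σ τ : L ≃ₐ[K] L,
        σ • z τ / z (σ * τ) * z σ = c₁ (σ, τ) / aL ^ (H379.carry n (ψ σ) (ψ τ)) := by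
    letI := addAct (L ≃ₐ[K] L) (↥L)ˣ
    have hf : IsCocycle₂ (fun p : (L ≃ₐ[K] L) × (L ≃ₐ[K] L) => Additive.ofMul (c₁ p)) := by
      intro g h j
      exact congrArg Additive.ofMul (hc₁ g h j)
    obtain ⟨aA, haA, z, hz⟩ := H379.exists_cupChar_cohomologous hψadd hψinj hψσ hf
    refine ⟨Additive.toMul aA, fun σ => congrArg Additive.toMul (haA σ),
      fun σ => Additive.toMul (z σ), fun σ τ => ?_⟩
    have := congrArg Additive.toMul (hz σ τ)
    simp only [Pi.sub_apply, H379.cupChar_apply] at this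
    exact this
  -- `a` comes from `K`
  have haK : ((aL : (↥L)ˣ) : L) ∈ (⊥ : IntermediateField K L) := by
    rw [IsGalois.mem_bot_iff_fixed]
    intro σ
    have := congrArg (fun m : (↥L)ˣ => (m : L)) (haLfix σ)
    exact this
  obtain ⟨k, hk⟩ := IntermediateField.mem_bot.1 haK
  have hk0 : k ≠ 0 := by
    rintro rfl
    rw [map_zero] at hk
    exact aL.ne_zero hk.symm
  have haL : Units.map (algebraMap K L : K →* L) (Units.mk0 k hk0) = aL :=
    Units.ext hk
  refine ⟨Units.mk0 k hk0, fun γ => y γ * unitsInc L E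
    (z (AlgEquiv.restrictNormalHom L γ)), fun γ δ => ?_⟩
  -- assemble
  have h1 := hy γ δ
  have e1 : unitsInc L E aL = Units.map (algebraMap K E : K →* E) (Units.mk0 k hk0) := by
    rw [← haL]
    apply Units.ext
    exact (IsScalarTower.algebraMap_apply K L E k).symm
  have hχγ : ψ (AlgEquiv.restrictNormalHom L γ) = Multiplicative.toAdd (χ γ) := by
    simp only [ψ, hχL]
  have hχδ : ψ (AlgEquiv.restrictNormalHom L δ) = Multiplicative.toAdd (χ δ) := by
    simp only [ψ, hχL]
  have h3 := congrArg (unitsInc L E)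
    (hz (AlgEquiv.restrictNormalHom L γ) (AlgEquiv.restrictNormalHom L δ))
  rw [hχγ, hχδ, map_mul, map_div, unitsInc_smul, map_div, map_pow, e1, ← map_mul] at h3
  simp only [inflCochain_apply] at h1
  -- now pure group algebra in `Eˣ`
  have h4 : unitsInc L E (c₁ (AlgEquiv.restrictNormalHom L γ, AlgEquiv.restrictNormalHom L δ)) =
      c (γ, δ) / (γ • y δ / y (γ * δ) * y γ) := by
    rw [h1]
    simp only [div_div_cancel]
  rw [h4] at h3
  simp only [smul_mul']
  generalize unitsInc L E (z ((AlgEquiv.restrictNormalHom L) δ)) = Z1 at h3 ⊢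
  generalize unitsInc L E (z ((AlgEquiv.restrictNormalHom L) (γ * δ))) = Z2 at h3 ⊢
  generalize unitsInc L E (z ((AlgEquiv.restrictNormalHom L) γ)) = Z3 at h3 ⊢
  generalize (Units.map (algebraMap K E : K →* E) (Units.mk0 k hk0)) ^
    (H379.carry n (Multiplicative.toAdd (χ γ)) (Multiplicative.toAdd (χ δ))) = P at h3 ⊢
  generalize γ • y δ = Y1 at h3 ⊢
  generalize y (γ * δ) = Y2 at h3 ⊢
  generalize y γ = Y3 at h3 ⊢
  generalize γ • Z1 = Z1' at h3 ⊢
  generalize c (γ, δ) = C at h3 ⊢
  have h5 : C = (Z1' / Z2 * Z3) * P * (Y1 / Y2 * Y3) := by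
    rw [h3, div_mul_cancel, div_mul_cancel]
  rw [h5]
  simp only [div_eq_mul_inv, mul_inv_rev]
  ac_rfl

end Finite

end Fermat.Agent.S55.G.Rec.Glob
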