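import Fermat.Agent.S55.G.Rec.Glob.Cochain
import Fermat.Agent.S55.G.Rec.Glob.CyclicFinite

/-!
# S55 / REC / leaf K4 : `CyclicSplitSpec` (helper64)

`cyclicSplit : CyclicSplitSpec` — a class of `Br(K)`, `K = ℚ̄^U`, which dies in `Br(L)`, `L / K`
cyclic cut out by a surjective continuous character `χ : U → ℤ/n`, is the cup class `a ∪ δχ` for
some `a ∈ Kˣ`.

Proof: descend the cocycle and the trivialising 1-cochain to a finite Galois level `E / K`
(global dictionary `Glob/Basic.lean`, `Glob/Cochain.lean`), apply the finite-level statement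
`exists_cupChar_of_res_coboundary` (`Glob/CyclicFinite.lean`: inflation–restriction, Hilbert 90,
cyclic periodicity), and inflate back.
-/

set_option autoImplicit false
set_option linter.style.haveILetI false

noncomputable section

namespace Fermat.Agent.S55.G.Rec.Glob

open groupCohomology IntermediateField

local notation "Qb" => AlgebraicClosure ℚ
local notation "GQ" => (AlgebraicClosure ℚ ≃ₐ[ℚ] AlgebraicClosure ℚ)

/-- The kernel of a continuous character of an open subgroup is open. -/
theorem isOpenQ_ker_map {U : Subgroup GQ} (hU : IsOpenQ U) {n : ℕ}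
    (χ : ↥U →* Multiplicative (ZMod n)) (hχ : IsLevelConstant₁ U.subtype χ) :
    IsOpenQ (χ.ker.map U.subtype) := by
  obtain ⟨F, hF, hFU⟩ := hU
  obtain ⟨F', hF', h⟩ := hχ
  haveI := hF
  haveI := hF'
  refine ⟨F ⊔ F', inferInstance, fun s hs => ?_⟩
  have hsU : s ∈ U := hFU (IntermediateField.fixingSubgroup_antitone le_sup_left hs)
  refine Subgroup.mem_map.2 ⟨⟨s, hsU⟩, ?_, rfl⟩
  rw [MonoidHom.mem_ker]
  have := h 1 ⟨s, hsU⟩ (IntermediateField.fixingSubgroup_antitone le_sup_right hs)
  rwa [one_mul, map_one] at this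

set_option maxHeartbeats 1600000 in
/-- **K4**: global cyclic splitting. -/
theorem cyclicSplit : CyclicSplitSpec := by
  intro U hU n _ χ hχ hsurj x hx
  have hle : χ.ker.map U.subtype ≤ U := Subgroup.map_subtype_le _
  have hU' : IsOpenQ (χ.ker.map U.subtype) := isOpenQ_ker_map hU χ hχ
  -- a representative
  obtain ⟨c, rfl⟩ := Submodule.mkQ_surjective _ x
  -- its restriction is a level coboundary
  have hx' : (cochainsPullPush₂ (Subgroup.inclusion hle)
      (LinearMap.id : gModOn U →ₗ[ℤ] gModOn (χ.ker.map U.subtype))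
      (c : ↥U × ↥U → gModOn U)) ∈
        levelCoboundaries₂ (χ.ker.map U.subtype).subtype (gModOn (χ.ker.map U.subtype)) :=
    (continuousH2π_eq_zero_iff _ _ _).1 hx
  obtain ⟨b, hb, hdb⟩ := (mem_levelCoboundaries₂_iff _ _ _).1 hx'
  have hbfin := finite_range_of_isLevelConstant₁ hU' hb
  obtain ⟨Fb, hFb, hbconst⟩ := hb
  have hχ' := hχ
  obtain ⟨Fχ, hFχ, hχconst⟩ := hχ'
  haveI := hFb
  haveI := hFχ
  -- the finite level
  obtain ⟨E, hfd, hgal, cbar, hFE, hTE, hcbar⟩ := exists_level_eq_infl₂ hU
    (c : ↥U × ↥U → gModOn U) c.2.2 (Fb ⊔ Fχ)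
    ((fun m : gModOn (χ.ker.map U.subtype) => ((Additive.toMul m : Qbˣ) : Qb)) '' Set.range b)
    (hbfin.image _)
  haveI := hfd
  haveI := hgal
  have hcoc : IsMulCocycle₂ cbar := by
    rw [← infl₂_mem_cocycles₂_iff hU E cbar, hcbar]
    exact c.2.1
  have hFbE : ∀ s : ↥U, resHom U E s = 1 → (s : GQ) ∈ Fb.fixingSubgroup := fun s hs =>
    mem_fixingSubgroup_of_resHom_eq_one U E s hs (fun x hx => hFE x (le_sup_left (a := Fb) hx))
  have hFχE : ∀ s : ↥U, resHom U E s = 1 → (s : GQ) ∈ Fχ.fixingSubgroup := fun s hs =>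
    mem_fixingSubgroup_of_resHom_eq_one U E s hs (fun x hx => hFE x (le_sup_right (b := Fχ) hx))
  -- the character at finite level
  have hkerχ : (resHom U E).ker ≤ χ.ker := by
    intro s hs
    rw [MonoidHom.mem_ker] at hs ⊢
    have := hχconst 1 s (hFχE s hs)
    rwa [one_mul, map_one] at this
  let χbar : (E ≃ₐ[fixedFld U] E) →* Multiplicative (ZMod n) :=
    MonoidHom.liftOfSurjective (resHom U E) (resHom_surjective hU E) ⟨χ, hkerχ⟩
  have hχbar : ∀ u : ↥U, χbar (resHom U E u) = χ u := fun u =>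
    MonoidHom.liftOfRightInverse_comp_apply _ _ _ _ u
  have hχbarsurj : Function.Surjective χbar := by
    intro m
    obtain ⟨u, rfl⟩ := hsurj m
    exact ⟨resHom U E u, hχbar u⟩
  -- lifting elements of `ker χbar` to `U' = ker χ`
  have hlift : ∀ s : χbar.ker, ∃ v : ↥(χ.ker.map U.subtype),
      resHom U E (Subgroup.inclusion hle v) = (s : E ≃ₐ[fixedFld U] E) := by
    intro s
    obtain ⟨u, hu⟩ := resHom_surjective hU E (s : E ≃ₐ[fixedFld U] E)
    have hmem : u ∈ χ.ker := by
      rw [MonoidHom.mem_ker, ← hχbar, hu]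
      exact MonoidHom.mem_ker.1 s.2
    refine ⟨⟨(u : GQ), Subgroup.mem_map.2 ⟨u, hmem, rfl⟩⟩, ?_⟩
    rw [← hu]
    rfl
  choose up hup using hlift
  have hvalb : ∀ v : ↥(χ.ker.map U.subtype), ((Additive.toMul (b v) : Qbˣ) : Qb) ∈ E :=
    fun v => hTE _ ⟨b v, ⟨v, rfl⟩, rfl⟩
  choose β hβ using fun s : χbar.ker => exists_unitsIncl_eq U E (hvalb (up s))
  -- `b` is constant modulo the level
  have hbE : ∀ v r : ↥(χ.ker.map U.subtype), resHom U E (Subgroup.inclusion hle r) = 1 →
      b (v * r) = b v := fun v r hr => hbconst v r (hFbE _ hr)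
  have hβcob : ∀ s t : χbar.ker, (s : E ≃ₐ[fixedFld U] E) • β t / β (s * t) * β s =
      cbar ((s : E ≃ₐ[fixedFld U] E), t) := by
    intro s t
    apply unitsIncl_injective U E
    -- the value of `b` at `up (s * t)`
    have hr : resHom U E (Subgroup.inclusion hle ((up s * up t)⁻¹ * up (s * t))) = 1 := by
      rw [map_mul (Subgroup.inclusion hle), map_mul (resHom U E), hup (s * t),
        map_inv (Subgroup.inclusion hle), map_inv (resHom U E),
        map_mul (Subgroup.inclusion hle), map_mul (resHom U E), hup s, hup t]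
      exact inv_mul_cancel _
    have hbst : b (up (s * t)) = b (up s * up t) := by
      have := hbE (up s * up t) ((up s * up t)⁻¹ * up (s * t)) hr
      rwa [mul_inv_cancel_left] at this
    have hs : (s : E ≃ₐ[fixedFld U] E) • β t =
        resHom U E (Subgroup.inclusion hle (up s)) • β t := by rw [hup s]
    rw [map_mul, map_div, hs, unitsIncl_smul, hβ, hβ, hβ, hbst]
    -- the coboundary relation
    have h1 := congrFun hdb (up s, up t)
    rw [d₁₂_hom_apply] at h1
    have h2 : (c : ↥U × ↥U → gModOn U)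
        (Subgroup.inclusion hle (up s), Subgroup.inclusion hle (up t)) =
        Additive.ofMul (unitsIncl U E (cbar (resHom U E (Subgroup.inclusion hle (up s)),
          resHom U E (Subgroup.inclusion hle (up t))))) := by
      rw [← hcbar]
      rfl
    have h3 := congrArg Additive.toMul (h1.trans h2)
    rw [hup s, hup t] at h3
    exact h3
  -- the finite-level theorem
  obtain ⟨a, w, hw⟩ := exists_cupChar_of_res_coboundary (fixedFld U) E n χbar hχbarsurj cbar hcoc
    β hβcob
  -- the element `a` of `K`, in `ℚ̄`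
  have haQfix : GFixed U (unitsIncl U E (Units.map (algebraMap (fixedFld U) E :
      (fixedFld U) →* E) a)) := by
    intro u hu
    apply Units.ext
    exact (IntermediateField.mem_fixedField_iff U _).1 (a : fixedFld U).2 u hu
  refine ⟨unitsIncl U E (Units.map (algebraMap (fixedFld U) E : (fixedFld U) →* E) a),
    haQfix, ?_⟩
  rw [gcc_eq U n χ _ ⟨NeZero.ne n, hχ, haQfix⟩]
  refine (Submodule.Quotient.eq _).2 ?_
  refine (mem_levelCoboundaries₂_iff _ _ _).2 ⟨infl₁ U E w, isLevelConstant₁_infl₁ hU E w, ?_⟩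
  rw [d₁₂_infl₁]
  funext ⟨g, k⟩
  have h1 : (c : ↥U × ↥U → gModOn U) (g, k) =
      Additive.ofMul (unitsIncl U E (cbar (resHom U E g, resHom U E k))) := by
    rw [← hcbar]
    rfl
  have key : unitsIncl U E (resHom U E g • w (resHom U E k) /
        w (resHom U E g * resHom U E k) * w (resHom U E g)) =
      unitsIncl U E (cbar (resHom U E g, resHom U E k)) /
        (unitsIncl U E (Units.map (algebraMap (fixedFld U) E : (fixedFld U) →* E) a)) ^
          (H379.carry n (chiAdd χ g) (chiAdd χ k)) := by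
    rw [hw, hχbar, hχbar]
    generalize (resHom U E g • w (resHom U E k) / w (resHom U E g * resHom U E k) *
      w (resHom U E g)) = X
    rw [map_mul, map_pow]
    exact (mul_div_cancel_right _ _).symm
  have h2 : infl₂ U E (fun p => p.1 • w p.2 / w (p.1 * p.2) * w p.1) (g, k) =
      Additive.ofMul (unitsIncl U E (cbar (resHom U E g, resHom U E k)) /
        (unitsIncl U E (Units.map (algebraMap (fixedFld U) E : (fixedFld U) →* E) a)) ^
          (H379.carry n (chiAdd χ g) (chiAdd χ k))) :=
    congrArg Additive.ofMul key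
  rw [h2, Submodule.subtype_apply, Submodule.coe_sub, Pi.sub_apply, h1]
  rfl

end Fermat.Agent.S55.G.Rec.Glob
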