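import Fermat.Agent.S55.G.Rec.Spec2
import Fermat.Agent.S55.Bridge.Level

/-!
# S55 / layer G / block REC / GLOBAL finite-level dictionary, part 1 (helper64)

For an open subgroup `U ≤ G_ℚ = Gal(ℚ̄/ℚ)` (`IsOpenQ U`):

* `fixedFld U` : the fixed field `K_U`, an `IntermediateField ℚ ℚ̄`;
  `finiteDimensional_fixedFld`, `fixingSubgroup_fixedFld : K_U.fixingSubgroup = U`;
* levels `E : IntermediateField K_U ℚ̄`, finite Galois over `K_U`;
  `resHom U E : U →* Gal(E / K_U)`, `resHom_surjective`, `resHom_eq_one_iff`;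
* `levelFld U E : IntermediateField ℚ ℚ̄` (the field `E` over `ℚ`), finite over `ℚ`, and
  `resHom_eq_one_of_mem_fixingSubgroup`;
* `exists_level` : there is a finite Galois level containing any given number field and any given
  finite set of elements.

(The local analogue is helper477's `G/Rec/Loc/`.)
-/

set_option autoImplicit false
set_option linter.style.haveILetI false

noncomputable section

namespace Fermat.Agent.S55.G.Rec.Glob

open groupCohomology IntermediateField

local notation "Qb" => AlgebraicClosure ℚ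
local notation "GQ" => (AlgebraicClosure ℚ ≃ₐ[ℚ] AlgebraicClosure ℚ)

attribute [local instance] Bridge.isAlgebraic_Qbar Bridge.isGalois_Qbar

/-- The fixed field `K_U` of `U ≤ G_ℚ`. -/
abbrev fixedFld (U : Subgroup GQ) : IntermediateField ℚ Qb := IntermediateField.fixedField U

lemma le_fixingSubgroup_fixedFld (U : Subgroup GQ) : U ≤ (fixedFld U).fixingSubgroup :=
  (IntermediateField.le_iff_le U (fixedFld U)).1 le_rfl

/-- An open subgroup is the fixing subgroup of its fixed field. -/
theorem fixingSubgroup_fixedFld {U : Subgroup GQ} (hU : IsOpenQ U) :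
    (fixedFld U).fixingSubgroup = U := by
  obtain ⟨F, hFfin, hF⟩ := hU
  have hopen : IsOpen (U : Set GQ) :=
    Subgroup.isOpen_mono hF (IntermediateField.fixingSubgroup_isOpen F)
  exact InfiniteGalois.fixingSubgroup_fixedField ⟨U, Subgroup.isClosed_of_isOpen U hopen⟩

/-- The fixed field of an open subgroup is a number field. -/
theorem finiteDimensional_fixedFld {U : Subgroup GQ} (hU : IsOpenQ U) :
    FiniteDimensional ℚ (fixedFld U) := by
  obtain ⟨F, hFfin, hF⟩ := hU
  have hle : fixedFld U ≤ F := by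
    rw [← InfiniteGalois.fixedField_fixingSubgroup F]
    exact IntermediateField.fixedField_antitone hF
  exact FiniteDimensional.of_injective (IntermediateField.inclusion hle).toLinearMap
    (IntermediateField.inclusion_injective hle)

lemma mem_of_fixes_fixedFld {U : Subgroup GQ} (hU : IsOpenQ U) {σ : GQ}
    (h : ∀ x ∈ fixedFld U, σ x = x) : σ ∈ U := by
  rw [← fixingSubgroup_fixedFld hU, IntermediateField.mem_fixingSubgroup_iff]
  exact h

/-! ### The absolute Galois group of `K_U` and restriction to levels -/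

/-- `U → Gal(ℚ̄ / K_U)`. -/
def toAbsGal (U : Subgroup GQ) : ↥U →* (Qb ≃ₐ[fixedFld U] Qb) :=
  (IntermediateField.fixingSubgroupEquiv (fixedFld U)).toMonoidHom.comp
    (Subgroup.inclusion (le_fixingSubgroup_fixedFld U))

@[simp] lemma toAbsGal_apply (U : Subgroup GQ) (σ : ↥U) (x : Qb) :
    toAbsGal U σ x = (σ : GQ) x := rfl

/-- Restriction `U → Gal(E / K_U)` for `E / K_U` normal. -/
def resHom (U : Subgroup GQ) (E : IntermediateField (fixedFld U) Qb) [Normal (fixedFld U) E] :
    ↥U →* (E ≃ₐ[fixedFld U] E) :=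
  (AlgEquiv.restrictNormalHom E).comp (toAbsGal U)

lemma resHom_apply_coe (U : Subgroup GQ) (E : IntermediateField (fixedFld U) Qb)
    [Normal (fixedFld U) E] (σ : ↥U) (x : E) :
    ((resHom U E σ x : E) : Qb) = (σ : GQ) (x : Qb) := by
  change algebraMap E Qb (AlgEquiv.restrictNormal (toAbsGal U σ) E x) = _
  rw [AlgEquiv.restrictNormal_commutes]
  rfl

lemma resHom_eq_one_iff (U : Subgroup GQ) (E : IntermediateField (fixedFld U) Qb)
    [Normal (fixedFld U) E] (σ : ↥U) :
    resHom U E σ = 1 ↔ ∀ x : Qb, x ∈ E → (σ : GQ) x = x := by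
  constructor
  · intro h x hx
    have := resHom_apply_coe U E σ ⟨x, hx⟩
    rw [h] at this
    exact this.symm
  · intro h
    ext x
    rw [resHom_apply_coe]
    exact h x x.2

lemma isAlgClosure_fixedFld (U : Subgroup GQ) : IsAlgClosure (fixedFld U) Qb :=
  ⟨inferInstance, Algebra.IsAlgebraic.tower_top (K := ℚ) (fixedFld U)⟩

lemma normal_Qb_fixedFld (U : Subgroup GQ) : Normal (fixedFld U) Qb :=
  haveI := isAlgClosure_fixedFld U
  IsAlgClosure.normal (fixedFld U) Qb

/-- Restriction to a level is surjective (for `U` open). -/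
theorem resHom_surjective {U : Subgroup GQ} (hU : IsOpenQ U)
    (E : IntermediateField (fixedFld U) Qb) [Normal (fixedFld U) E] :
    Function.Surjective (resHom U E) := by
  haveI := normal_Qb_fixedFld U
  intro τ
  obtain ⟨σ, hσ⟩ := AlgEquiv.restrictNormalHom_surjective (F := fixedFld U) (K₁ := E) Qb τ
  have hmem : σ.restrictScalars ℚ ∈ U := by
    apply mem_of_fixes_fixedFld hU
    intro x hx
    exact σ.commutes ⟨x, hx⟩
  refine ⟨⟨σ.restrictScalars ℚ, hmem⟩, ?_⟩
  rw [← hσ]
  ext x
  rw [resHom_apply_coe]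
  change σ (x : Qb) = algebraMap E Qb (AlgEquiv.restrictNormal σ E x)
  rw [AlgEquiv.restrictNormal_commutes]
  rfl

/-! ### Levels as number fields -/

/-- The level `E` as a subfield of `ℚ̄` over `ℚ`. -/
abbrev levelFld (U : Subgroup GQ) (E : IntermediateField (fixedFld U) Qb) :
    IntermediateField ℚ Qb :=
  E.restrictScalars ℚ

lemma mem_levelFld {U : Subgroup GQ} {E : IntermediateField (fixedFld U) Qb} {x : Qb} :
    x ∈ levelFld U E ↔ x ∈ E := Iff.rfl

theorem finiteDimensional_levelFld {U : Subgroup GQ} (hU : IsOpenQ U)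
    (E : IntermediateField (fixedFld U) Qb) [FiniteDimensional (fixedFld U) E] :
    FiniteDimensional ℚ (levelFld U E) := by
  haveI := finiteDimensional_fixedFld hU
  exact FiniteDimensional.trans ℚ (fixedFld U) E

lemma resHom_eq_one_of_mem_fixingSubgroup (U : Subgroup GQ)
    (E : IntermediateField (fixedFld U) Qb) [Normal (fixedFld U) E] (σ : ↥U)
    (h : (σ : GQ) ∈ (levelFld U E).fixingSubgroup) : resHom U E σ = 1 := by
  rw [resHom_eq_one_iff]
  intro x hx
  exact (IntermediateField.mem_fixingSubgroup_iff _ _).1 h x hx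

lemma mem_fixingSubgroup_of_resHom_eq_one (U : Subgroup GQ)
    (E : IntermediateField (fixedFld U) Qb) [Normal (fixedFld U) E] (σ : ↥U)
    (h : resHom U E σ = 1) {F : IntermediateField ℚ Qb} (hF : ∀ x ∈ F, x ∈ E) :
    (σ : GQ) ∈ F.fixingSubgroup := by
  rw [IntermediateField.mem_fixingSubgroup_iff]
  intro x hx
  exact (resHom_eq_one_iff U E σ).1 h x (hF x hx)

/-- Existence of finite Galois levels containing a given number field and a given finite set. -/
theorem exists_level {U : Subgroup GQ} (hU : IsOpenQ U) (F₀ : IntermediateField ℚ Qb)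
    [FiniteDimensional ℚ F₀] (T : Set Qb) (hT : T.Finite) :
    ∃ (E : IntermediateField (fixedFld U) Qb) (_ : FiniteDimensional (fixedFld U) E)
      (_ : IsGalois (fixedFld U) E), (∀ x ∈ F₀, x ∈ E) ∧ (∀ x ∈ T, x ∈ E) := by
  haveI := finiteDimensional_fixedFld hU
  haveI : Finite T := hT
  haveI : FiniteDimensional ℚ (IntermediateField.adjoin ℚ T) :=
    IntermediateField.finiteDimensional_adjoin (fun x _ => Algebra.IsIntegral.isIntegral x)
  -- a number field containing everything
  let E₁ : IntermediateField ℚ Qb := F₀ ⊔ IntermediateField.adjoin ℚ T ⊔ fixedFld U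
  let E₂ : IntermediateField ℚ Qb := normalClosure ℚ E₁ Qb
  have h12 : E₁ ≤ E₂ := IntermediateField.le_normalClosure E₁
  have hK : fixedFld U ≤ E₂ := le_trans le_sup_right h12
  haveI : FiniteDimensional ℚ E₂ := normalClosure.is_finiteDimensional ℚ E₁ Qb
  haveI : Normal ℚ E₂ := normalClosure.normal ℚ E₁ Qb
  haveI hfd : FiniteDimensional ℚ (IntermediateField.extendScalars hK) :=
    inferInstanceAs (FiniteDimensional ℚ E₂)
  haveI hnor : Normal ℚ (IntermediateField.extendScalars hK) :=
    inferInstanceAs (Normal ℚ E₂)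
  refine ⟨IntermediateField.extendScalars hK, ?_, ?_, ?_, ?_⟩
  · exact FiniteDimensional.right ℚ (fixedFld U) (IntermediateField.extendScalars hK)
  · haveI : Normal (fixedFld U) (IntermediateField.extendScalars hK) :=
      Normal.tower_top_of_normal ℚ (fixedFld U) (IntermediateField.extendScalars hK)
    exact ⟨⟩
  · intro x hx
    exact h12 ((le_sup_left.trans le_sup_left : F₀ ≤ E₁) hx)
  · intro x hx
    exact h12 ((le_sup_right.trans le_sup_left : IntermediateField.adjoin ℚ T ≤ E₁)
      (IntermediateField.subset_adjoin ℚ T hx))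

end Fermat.Agent.S55.G.Rec.Glob
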