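import Fermat.Agent.S55.G.Rec.Glob.Basic
import Fermat.Agent.S55.G.Rec.Glob.Inst

/-!
# S55 / layer G / block REC / GLOBAL finite-level dictionary, part 2 (helper64): cochains

`U ≤ G_ℚ` open, `K = fixedFld U`, `E` a finite Galois level (`IntermediateField K ℚ̄`),
`Γ = Gal(E/K)`.  Finite-level cochains are MULTIPLICATIVE (`Γ → Eˣ`, `Γ × Γ → Eˣ`, Mathlib's
`IsMulCocycle₂`, `IsMulCoboundary₂`); absolute cochains are the Prelude's (`↥U → gModOn U`, …).

* `unitsIncl U E : Eˣ →* ℚ̄ˣ`, `infl₁ U E b`, `infl₂ U E f` : inflation to `U`;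
* `isLevelConstant₁_infl₁`, `isLevelConstant₂_infl₂` : inflations are level-constant;
* `d₁₂_infl₁` : inflation commutes with the differential;
* `infl₂_mem_cocycles₂_iff` : `infl₂ f` is a cocycle iff `f` is;
* `infl₂_eq_d₁₂_infl₁_iff` : `infl₂ f = d (infl₁ b)` iff `f = d b`;
* `finite_range_of_isLevelConstant₁/₂` : level-constant cochains on an open subgroup have
  finitely many values;
* `exists_eq_infl₁`, `exists_eq_infl₂` : descent of a cochain which is constant modulo
  `ker (resHom U E)` with values in `E`;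
* `exists_level_eq_infl₂` : every level-constant 2-cochain on `U` is inflated from some finite
  Galois level, which can be chosen to contain any given number field and finite set.
-/

set_option autoImplicit false
set_option linter.style.haveILetI false

noncomputable section

namespace Fermat.Agent.S55.G.Rec.Glob

open groupCohomology IntermediateField

local notation "Qb" => AlgebraicClosure ℚ
local notation "GQ" => (AlgebraicClosure ℚ ≃ₐ[ℚ] AlgebraicClosure ℚ)

section Defs

variable (U : Subgroup GQ) (E : IntermediateField (fixedFld U) Qb)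

/-- The inclusion `Eˣ → ℚ̄ˣ`. -/
def unitsIncl : (↥E)ˣ →* Qbˣ := Units.map (algebraMap E Qb : E →* Qb)

@[simp] lemma unitsIncl_coe (y : (↥E)ˣ) : ((unitsIncl U E y : Qbˣ) : Qb) = ((y : E) : Qb) := rfl

lemma unitsIncl_injective : Function.Injective (unitsIncl U E) := by
  intro a b h
  apply Units.ext
  apply Subtype.ext
  have := congrArg (fun u : Qbˣ => (u : Qb)) h
  simpa using this

/-- An element of `ℚ̄ˣ` lying in `E` comes from `Eˣ`. -/
lemma exists_unitsIncl_eq {a : Qbˣ} (ha : (a : Qb) ∈ E) : ∃ y : (↥E)ˣ, unitsIncl U E y = a := by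
  have hne : (⟨(a : Qb), ha⟩ : E) ≠ 0 := by
    intro h0
    have := congrArg Subtype.val h0
    simp at this
  exact ⟨Units.mk0 _ hne, Units.ext rfl⟩

variable [Normal (fixedFld U) E]

lemma unitsIncl_smul (u : ↥U) (y : (↥E)ˣ) :
    unitsIncl U E (resHom U E u • y) = (u : GQ) • unitsIncl U E y := by
  apply Units.ext
  exact resHom_apply_coe U E u (y : E)

/-- Inflation of finite-level 1-cochains to `U`. -/
def infl₁ (b : (E ≃ₐ[fixedFld U] E) → (↥E)ˣ) : ↥U → gModOn U :=
  fun g => Additive.ofMul (unitsIncl U E (b (resHom U E g)))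

/-- Inflation of finite-level 2-cochains to `U`. -/
def infl₂ (f : (E ≃ₐ[fixedFld U] E) × (E ≃ₐ[fixedFld U] E) → (↥E)ˣ) : ↥U × ↥U → gModOn U :=
  fun p => Additive.ofMul (unitsIncl U E (f (resHom U E p.1, resHom U E p.2)))

lemma infl₁_apply (b : (E ≃ₐ[fixedFld U] E) → (↥E)ˣ) (g : ↥U) :
    infl₁ U E b g = Additive.ofMul (unitsIncl U E (b (resHom U E g))) := rfl

lemma infl₂_apply (f : (E ≃ₐ[fixedFld U] E) × (E ≃ₐ[fixedFld U] E) → (↥E)ˣ) (g h : ↥U) :
    infl₂ U E f (g, h) = Additive.ofMul (unitsIncl U E (f (resHom U E g, resHom U E h))) := rfl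

/-- The action of `U` on `gModOn U`, explicitly. -/
lemma gModOn_ρ_apply (u : ↥U) (m : gModOn U) :
    (gModOn U).ρ u m = Additive.ofMul ((u : GQ) • (Additive.toMul m : Qbˣ)) := rfl

/-- Inflation commutes with the differential. -/
lemma d₁₂_infl₁ (b : (E ≃ₐ[fixedFld U] E) → (↥E)ˣ) :
    (d₁₂ (gModOn U)).hom (infl₁ U E b) =
      infl₂ U E (fun p => p.1 • b p.2 / b (p.1 * p.2) * b p.1) := by
  funext ⟨g, h⟩
  rw [d₁₂_hom_apply, infl₂_apply, gModOn_ρ_apply]
  simp only [infl₁_apply, map_mul, map_div, unitsIncl_smul, toMul_ofMul]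
  rfl

end Defs

section Level

variable {U : Subgroup GQ} (hU : IsOpenQ U) (E : IntermediateField (fixedFld U) Qb)
  [FiniteDimensional (fixedFld U) E] [Normal (fixedFld U) E]

include hU

theorem isLevelConstant₁_infl₁ (b : (E ≃ₐ[fixedFld U] E) → (↥E)ˣ) :
    IsLevelConstant₁ U.subtype (infl₁ U E b) := by
  refine ⟨levelFld U E, finiteDimensional_levelFld hU E, fun g s hs => ?_⟩
  have h1 : resHom U E s = 1 := resHom_eq_one_of_mem_fixingSubgroup U E s hs
  rw [infl₁_apply, infl₁_apply, map_mul, h1, mul_one]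

theorem isLevelConstant₂_infl₂
    (f : (E ≃ₐ[fixedFld U] E) × (E ≃ₐ[fixedFld U] E) → (↥E)ˣ) :
    IsLevelConstant₂ U.subtype (infl₂ U E f) := by
  refine ⟨levelFld U E, finiteDimensional_levelFld hU E, fun g g' s s' hs hs' => ?_⟩
  have h1 : resHom U E s = 1 := resHom_eq_one_of_mem_fixingSubgroup U E s hs
  have h2 : resHom U E s' = 1 := resHom_eq_one_of_mem_fixingSubgroup U E s' hs'
  rw [infl₂_apply, infl₂_apply, map_mul, map_mul, h1, h2, mul_one, mul_one]

omit [FiniteDimensional (fixedFld U) E] in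
/-- `infl₂ f` is a cocycle iff `f` is a (multiplicative) cocycle. -/
theorem infl₂_mem_cocycles₂_iff
    (f : (E ≃ₐ[fixedFld U] E) × (E ≃ₐ[fixedFld U] E) → (↥E)ˣ) :
    infl₂ U E f ∈ cocycles₂ (gModOn U) ↔ IsMulCocycle₂ f := by
  rw [mem_cocycles₂_iff]
  constructor
  · intro h γ δ ε
    obtain ⟨g, rfl⟩ := resHom_surjective hU E γ
    obtain ⟨k, rfl⟩ := resHom_surjective hU E δ
    obtain ⟨j, rfl⟩ := resHom_surjective hU E ε
    apply unitsIncl_injective U E
    have := congrArg Additive.toMul (h g k j)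
    simp only [infl₂_apply, gModOn_ρ_apply, map_mul, toMul_ofMul] at this
    rw [map_mul, map_mul, unitsIncl_smul]
    exact this
  · intro h g k j
    have := congrArg (fun y => Additive.ofMul (unitsIncl U E y))
      (h (resHom U E g) (resHom U E k) (resHom U E j))
    simp only [map_mul, unitsIncl_smul] at this
    simp only [infl₂_apply, gModOn_ρ_apply, map_mul, toMul_ofMul]
    exact this

omit [FiniteDimensional (fixedFld U) E] in
/-- `infl₂ f = d (infl₁ b)` iff `f = d b`. -/
theorem infl₂_eq_d₁₂_infl₁_iff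
    (f : (E ≃ₐ[fixedFld U] E) × (E ≃ₐ[fixedFld U] E) → (↥E)ˣ)
    (b : (E ≃ₐ[fixedFld U] E) → (↥E)ˣ) :
    infl₂ U E f = (d₁₂ (gModOn U)).hom (infl₁ U E b) ↔
      ∀ γ δ, γ • b δ / b (γ * δ) * b γ = f (γ, δ) := by
  rw [d₁₂_infl₁]
  constructor
  · intro h γ δ
    obtain ⟨g, rfl⟩ := resHom_surjective hU E γ
    obtain ⟨k, rfl⟩ := resHom_surjective hU E δ
    apply unitsIncl_injective U E
    have := congrArg Additive.toMul (congrFun h (g, k))
    simp only [infl₂_apply, toMul_ofMul] at this
    exact this.symm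
  · intro h
    funext ⟨g, k⟩
    simp only [infl₂_apply]
    rw [h]

/-- A function on `U` which is constant modulo a level has finitely many values. -/
theorem finite_range_of_isLevelConstant₁ {X : Type*} {f : ↥U → X}
    (hf : IsLevelConstant₁ U.subtype f) : (Set.range f).Finite := by
  obtain ⟨F, hF, h⟩ := hf
  haveI := hF
  obtain ⟨E', hfd, hgal, hFE, -⟩ := exists_level hU F ∅ Set.finite_empty
  haveI := hfd
  haveI := hgal
  have key : ∀ g g' : ↥U, resHom U E' g = resHom U E' g' → f g = f g' := by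
    intro g g' hgg
    have hs : resHom U E' (g⁻¹ * g') = 1 := by rw [map_mul, map_inv, hgg, inv_mul_cancel]
    have := h g (g⁻¹ * g') (mem_fixingSubgroup_of_resHom_eq_one U E' _ hs hFE)
    rw [mul_inv_cancel_left] at this
    exact this.symm
  have hsub : Set.range f ⊆
      Set.range (fun γ : (E' ≃ₐ[fixedFld U] E') => f (Function.surjInv (resHom_surjective hU E') γ)) := by
    rintro _ ⟨g, rfl⟩
    refine ⟨resHom U E' g, key _ _ ?_⟩
    exact Function.surjInv_eq (resHom_surjective hU E') _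
  exact (Set.finite_range _).subset hsub

theorem finite_range_of_isLevelConstant₂ {X : Type*} {f : ↥U × ↥U → X}
    (hf : IsLevelConstant₂ U.subtype f) : (Set.range f).Finite := by
  obtain ⟨F, hF, h⟩ := hf
  haveI := hF
  obtain ⟨E', hfd, hgal, hFE, -⟩ := exists_level hU F ∅ Set.finite_empty
  haveI := hfd
  haveI := hgal
  have key : ∀ g g' k k' : ↥U, resHom U E' g = resHom U E' g' → resHom U E' k = resHom U E' k' →
      f (g, k) = f (g', k') := by
    intro g g' k k' hgg hkk
    have hs : resHom U E' (g⁻¹ * g') = 1 := by rw [map_mul, map_inv, hgg, inv_mul_cancel]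
    have hs' : resHom U E' (k⁻¹ * k') = 1 := by rw [map_mul, map_inv, hkk, inv_mul_cancel]
    have := h g k (g⁻¹ * g') (k⁻¹ * k') (mem_fixingSubgroup_of_resHom_eq_one U E' _ hs hFE)
      (mem_fixingSubgroup_of_resHom_eq_one U E' _ hs' hFE)
    rw [mul_inv_cancel_left, mul_inv_cancel_left] at this
    exact this.symm
  have hsub : Set.range f ⊆
      Set.range (fun γ : (E' ≃ₐ[fixedFld U] E') × (E' ≃ₐ[fixedFld U] E') =>
        f (Function.surjInv (resHom_surjective hU E') γ.1,
          Function.surjInv (resHom_surjective hU E') γ.2)) := by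
    rintro _ ⟨⟨g, k⟩, rfl⟩
    refine ⟨(resHom U E' g, resHom U E' k), key _ _ _ _ ?_ ?_⟩
    · exact Function.surjInv_eq (resHom_surjective hU E') _
    · exact Function.surjInv_eq (resHom_surjective hU E') _
  exact (Set.finite_range _).subset hsub

omit [FiniteDimensional (fixedFld U) E] in
/-- Descent of a 1-cochain which is constant modulo `ker (resHom U E)`, with values in `E`. -/
theorem exists_eq_infl₁ (x : ↥U → gModOn U)
    (hx : ∀ g s : ↥U, resHom U E s = 1 → x (g * s) = x g)
    (hval : ∀ g, ((Additive.toMul (x g) : Qbˣ) : Qb) ∈ E) :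
    ∃ b : (E ≃ₐ[fixedFld U] E) → (↥E)ˣ, infl₁ U E b = x := by
  choose y hy using fun g => exists_unitsIncl_eq U E (hval g)
  refine ⟨fun γ => y (Function.surjInv (resHom_surjective hU E) γ), funext fun g => ?_⟩
  rw [infl₁_apply, hy]
  set g' := Function.surjInv (resHom_surjective hU E) (resHom U E g) with hg'
  have hgg : resHom U E g' = resHom U E g := Function.surjInv_eq (resHom_surjective hU E) _
  have hs : resHom U E (g'⁻¹ * g) = 1 := by rw [map_mul, map_inv, hgg, inv_mul_cancel]
  have := hx g' (g'⁻¹ * g) hs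
  rw [mul_inv_cancel_left] at this
  rw [← this]
  rfl

omit [FiniteDimensional (fixedFld U) E] in
/-- Descent of a 2-cochain which is constant modulo `ker (resHom U E)`, with values in `E`. -/
theorem exists_eq_infl₂ (c : ↥U × ↥U → gModOn U)
    (hc : ∀ g k s s' : ↥U, resHom U E s = 1 → resHom U E s' = 1 → c (g * s, k * s') = c (g, k))
    (hval : ∀ p, ((Additive.toMul (c p) : Qbˣ) : Qb) ∈ E) :
    ∃ f : (E ≃ₐ[fixedFld U] E) × (E ≃ₐ[fixedFld U] E) → (↥E)ˣ, infl₂ U E f = c := by
  choose y hy using fun p => exists_unitsIncl_eq U E (hval p)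
  refine ⟨fun γ => y (Function.surjInv (resHom_surjective hU E) γ.1,
    Function.surjInv (resHom_surjective hU E) γ.2), funext fun ⟨g, k⟩ => ?_⟩
  rw [infl₂_apply, hy]
  set g' := Function.surjInv (resHom_surjective hU E) (resHom U E g) with hg'
  set k' := Function.surjInv (resHom_surjective hU E) (resHom U E k) with hk'
  have hgg : resHom U E g' = resHom U E g := Function.surjInv_eq (resHom_surjective hU E) _
  have hkk : resHom U E k' = resHom U E k := Function.surjInv_eq (resHom_surjective hU E) _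
  have hs : resHom U E (g'⁻¹ * g) = 1 := by rw [map_mul, map_inv, hgg, inv_mul_cancel]
  have hs' : resHom U E (k'⁻¹ * k) = 1 := by rw [map_mul, map_inv, hkk, inv_mul_cancel]
  have := hc g' k' (g'⁻¹ * g) (k'⁻¹ * k) hs hs'
  rw [mul_inv_cancel_left, mul_inv_cancel_left] at this
  rw [← this]
  rfl

end Level

/-- Every level-constant 2-cochain on an open `U` is inflated from a finite Galois level, which
can be chosen to contain a given number field `F₀` and a given finite set `T`. -/
theorem exists_level_eq_infl₂ {U : Subgroup GQ} (hU : IsOpenQ U) (c : ↥U × ↥U → gModOn U)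
    (hc : IsLevelConstant₂ U.subtype c) (F₀ : IntermediateField ℚ Qb) [FiniteDimensional ℚ F₀]
    (T : Set Qb) (hT : T.Finite) :
    ∃ (E : IntermediateField (fixedFld U) Qb) (_ : FiniteDimensional (fixedFld U) E)
      (_ : IsGalois (fixedFld U) E)
      (f : (E ≃ₐ[fixedFld U] E) × (E ≃ₐ[fixedFld U] E) → (↥E)ˣ),
      (∀ x ∈ F₀, x ∈ E) ∧ (∀ x ∈ T, x ∈ E) ∧ infl₂ U E f = c := by
  have hfin := finite_range_of_isLevelConstant₂ hU hc
  obtain ⟨F, hF, h⟩ := hc
  haveI := hF
  have hT' : (T ∪ (fun m : gModOn U => ((Additive.toMul m : Qbˣ) : Qb)) '' Set.range c).Finite :=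
    hT.union (hfin.image _)
  obtain ⟨E, hfd, hgal, hFE, hTE⟩ := exists_level hU (F ⊔ F₀) _ hT'
  haveI := hfd
  haveI := hgal
  obtain ⟨f, hf⟩ := exists_eq_infl₂ hU E c
    (fun g k s s' hs hs' => h g k s s'
      (mem_fixingSubgroup_of_resHom_eq_one U E s hs (fun x hx => hFE x (le_sup_left (a := F) hx)))
      (mem_fixingSubgroup_of_resHom_eq_one U E s' hs'
        (fun x hx => hFE x (le_sup_left (a := F) hx))))
    (fun p => hTE _ (Or.inr ⟨c p, ⟨p, rfl⟩, rfl⟩))
  exact ⟨E, hfd, hgal, f, fun x hx => hFE x (le_sup_right (b := F₀) hx),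
    fun x hx => hTE x (Or.inl hx), hf⟩

end Fermat.Agent.S55.G.Rec.Glob
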